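import Fermat.Agent.S11.Kummer.Units

/-!
# Kummer's lemma for small primes: explicit units at every level for `p ∈ {5, 7, 11, 13}`
-/

namespace Fermat.Agent.S11

open NumberField

section Helpers

variable {p : ℕ} [hp : Fact p.Prime] {K : Type*} [Field K] [NumberField K]
  [IsCyclotomicExtension {p} ℚ K] {ζ : K} (hζ : IsPrimitiveRoot ζ p)

theorem kummer_exists_of_cert {h k : ℕ} (hk : k = 2 * h) (hh1 : 1 ≤ h) (hh : 2 * h + 1 ≤ p - 1)
    {X : 𝓞 K} (hX : IsUnit X) {c d : ℤ} {A B : 𝓞 K} (hd : ¬ (p : ℤ) ∣ d)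
    (hu : X = c + d * kummerNu hζ ^ h + p * A + kummerNu hζ ^ (h + 1) * B) :
    ∃ g ∈ kummerLevel hζ k, g ∉ kummerLevel hζ (k + 1) := by
  subst hk
  exact ⟨hX.unit, kummer_level_cert_nu hζ hh1 hh hd (by rw [IsUnit.unit_spec]; exact hu)⟩

/-- `ζ` itself is a unit of level exactly `1`. -/
theorem kummer_level_one (hp3 : 3 ≤ p) :
    ∃ g ∈ kummerLevel hζ 1, g ∉ kummerLevel hζ (1 + 1) := by
  have hX : IsUnit hζ.toInteger := hζ.toInteger_isPrimitiveRoot.isUnit (NeZero.ne p)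
  refine ⟨hX.unit, kummer_level_cert hζ le_rfl (by omega) (c := 1) (e := 1) (A := 0) (B := 0)
    (fun h => hζ.zeta_sub_one_prime'.not_isUnit (isUnit_of_dvd_one h)) ?_⟩
  rw [IsUnit.unit_spec]
  push_cast
  ring

end Helpers

theorem kummer_level_five_2 {K : Type*} [Field K] [NumberField K] [Fact (Nat.Prime 5)]
    [IsCyclotomicExtension {5} ℚ K] {ζ : K} (hζ : IsPrimitiveRoot ζ 5) :
    ∃ g ∈ kummerLevel hζ 2, g ∉ kummerLevel hζ (2 + 1) := by
  have hX : IsUnit ((3 + kummerNu hζ)) :=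
    (kummer_isUnit_gA hζ (by norm_num))
  refine kummer_exists_of_cert hζ (h := 1) (k := 2) rfl (by norm_num) (by norm_num) hX (c := 3) (d := 1)
    (A := 0)
    (B := 0) (by norm_num) ?_
  push_cast
  ring

theorem kummer_level_seven_2 {K : Type*} [Field K] [NumberField K] [Fact (Nat.Prime 7)]
    [IsCyclotomicExtension {7} ℚ K] {ζ : K} (hζ : IsPrimitiveRoot ζ 7) :
    ∃ g ∈ kummerLevel hζ 2, g ∉ kummerLevel hζ (2 + 1) := by
  have hX : IsUnit ((3 + kummerNu hζ)) :=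
    (kummer_isUnit_gA hζ (by norm_num))
  refine kummer_exists_of_cert hζ (h := 1) (k := 2) rfl (by norm_num) (by norm_num) hX (c := 3) (d := 1)
    (A := 0)
    (B := 0) (by norm_num) ?_
  push_cast
  ring

theorem kummer_level_seven_4 {K : Type*} [Field K] [NumberField K] [Fact (Nat.Prime 7)]
    [IsCyclotomicExtension {7} ℚ K] {ζ : K} (hζ : IsPrimitiveRoot ζ 7) :
    ∃ g ∈ kummerLevel hζ 4, g ∉ kummerLevel hζ (4 + 1) := by
  have hX : IsUnit ((3 + kummerNu hζ) ^ 2 * (2 + kummerNu hζ)) :=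
    (((kummer_isUnit_gA hζ (by norm_num)).pow 2).mul (kummer_isUnit_gB hζ (by norm_num)))
  refine kummer_exists_of_cert hζ (h := 2) (k := 4) rfl (by norm_num) (by norm_num) hX (c := 18) (d := 8)
    (A := 3 * kummerNu hζ)
    (B := 1) (by norm_num) ?_
  push_cast
  ring

theorem kummer_level_eleven_2 {K : Type*} [Field K] [NumberField K] [Fact (Nat.Prime 11)]
    [IsCyclotomicExtension {11} ℚ K] {ζ : K} (hζ : IsPrimitiveRoot ζ 11) :
    ∃ g ∈ kummerLevel hζ 2, g ∉ kummerLevel hζ (2 + 1) := by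
  have hX : IsUnit ((3 + kummerNu hζ)) :=
    (kummer_isUnit_gA hζ (by norm_num))
  refine kummer_exists_of_cert hζ (h := 1) (k := 2) rfl (by norm_num) (by norm_num) hX (c := 3) (d := 1)
    (A := 0)
    (B := 0) (by norm_num) ?_
  push_cast
  ring

theorem kummer_level_eleven_4 {K : Type*} [Field K] [NumberField K] [Fact (Nat.Prime 11)]
    [IsCyclotomicExtension {11} ℚ K] {ζ : K} (hζ : IsPrimitiveRoot ζ 11) :
    ∃ g ∈ kummerLevel hζ 4, g ∉ kummerLevel hζ (4 + 1) := by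
  have hX : IsUnit ((3 + kummerNu hζ) * (2 + kummerNu hζ) * (1 + kummerNu hζ)) :=
    (((kummer_isUnit_gA hζ (by norm_num)).mul (kummer_isUnit_gB hζ (by norm_num))).mul (kummer_isUnit_gC hζ (by norm_num)))
  refine kummer_exists_of_cert hζ (h := 2) (k := 4) rfl (by norm_num) (by norm_num) hX (c := 6) (d := 6)
    (A := 1 * kummerNu hζ)
    (B := 1) (by norm_num) ?_
  push_cast
  ring

theorem kummer_level_eleven_6 {K : Type*} [Field K] [NumberField K] [Fact (Nat.Prime 11)]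
    [IsCyclotomicExtension {11} ℚ K] {ζ : K} (hζ : IsPrimitiveRoot ζ 11) :
    ∃ g ∈ kummerLevel hζ 6, g ∉ kummerLevel hζ (6 + 1) := by
  have hX : IsUnit ((3 + kummerNu hζ) * (1 + kummerNu hζ) ^ 3 * (1 + 4 * kummerNu hζ + kummerNu hζ ^ 2)) :=
    (((kummer_isUnit_gA hζ (by norm_num)).mul ((kummer_isUnit_gC hζ (by norm_num)).pow 3)).mul (kummer_isUnit_gC2 hζ (by norm_num)))
  refine kummer_exists_of_cert hζ (h := 3) (k := 6) rfl (by norm_num) (by norm_num) hX (c := 3) (d := 64)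
    (A := 2 * kummerNu hζ + 5 * kummerNu hζ ^ 2)
    (B := 37 + 10 * kummerNu hζ + 1 * kummerNu hζ ^ 2) (by norm_num) ?_
  push_cast
  ring

theorem kummer_level_eleven_8 {K : Type*} [Field K] [NumberField K] [Fact (Nat.Prime 11)]
    [IsCyclotomicExtension {11} ℚ K] {ζ : K} (hζ : IsPrimitiveRoot ζ 11) :
    ∃ g ∈ kummerLevel hζ 8, g ∉ kummerLevel hζ (8 + 1) := by
  have hX : IsUnit ((2 + kummerNu hζ) ^ 5 * (5 + 5 * kummerNu hζ + kummerNu hζ ^ 2) * (1 + kummerNu hζ) ^ 2) :=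
    ((((kummer_isUnit_gB hζ (by norm_num)).pow 5).mul (kummer_isUnit_gD hζ (by norm_num))).mul ((kummer_isUnit_gC hζ (by norm_num)).pow 2))
  refine kummer_exists_of_cert hζ (h := 4) (k := 8) rfl (by norm_num) (by norm_num) hX (c := 160) (d := 2522)
    (A := 80 * kummerNu hζ + 192 * kummerNu hζ ^ 2 + 264 * kummerNu hζ ^ 3)
    (B := 1435 + 535 * kummerNu hζ + 126 * kummerNu hζ ^ 2 + 17 * kummerNu hζ ^ 3 + 1 * kummerNu hζ ^ 4) (by norm_num) ?_
  push_cast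
  ring

theorem kummer_level_thirteen_2 {K : Type*} [Field K] [NumberField K] [Fact (Nat.Prime 13)]
    [IsCyclotomicExtension {13} ℚ K] {ζ : K} (hζ : IsPrimitiveRoot ζ 13) :
    ∃ g ∈ kummerLevel hζ 2, g ∉ kummerLevel hζ (2 + 1) := by
  have hX : IsUnit ((3 + kummerNu hζ)) :=
    (kummer_isUnit_gA hζ (by norm_num))
  refine kummer_exists_of_cert hζ (h := 1) (k := 2) rfl (by norm_num) (by norm_num) hX (c := 3) (d := 1)
    (A := 0)
    (B := 0) (by norm_num) ?_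
  push_cast
  ring

theorem kummer_level_thirteen_4 {K : Type*} [Field K] [NumberField K] [Fact (Nat.Prime 13)]
    [IsCyclotomicExtension {13} ℚ K] {ζ : K} (hζ : IsPrimitiveRoot ζ 13) :
    ∃ g ∈ kummerLevel hζ 4, g ∉ kummerLevel hζ (4 + 1) := by
  have hX : IsUnit ((3 + kummerNu hζ) * (1 + 4 * kummerNu hζ + kummerNu hζ ^ 2)) :=
    ((kummer_isUnit_gA hζ (by norm_num)).mul (kummer_isUnit_gC2 hζ (by norm_num)))
  refine kummer_exists_of_cert hζ (h := 2) (k := 4) rfl (by norm_num) (by norm_num) hX (c := 3) (d := 7)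
    (A := 1 * kummerNu hζ)
    (B := 1) (by norm_num) ?_
  push_cast
  ring

theorem kummer_level_thirteen_6 {K : Type*} [Field K] [NumberField K] [Fact (Nat.Prime 13)]
    [IsCyclotomicExtension {13} ℚ K] {ζ : K} (hζ : IsPrimitiveRoot ζ 13) :
    ∃ g ∈ kummerLevel hζ 6, g ∉ kummerLevel hζ (6 + 1) := by
  have hX : IsUnit ((2 + kummerNu hζ) * (1 + kummerNu hζ) ^ 2 * (1 + 4 * kummerNu hζ + kummerNu hζ ^ 2)) :=
    (((kummer_isUnit_gB hζ (by norm_num)).mul ((kummer_isUnit_gC hζ (by norm_num)).pow 2)).mul (kummer_isUnit_gC2 hζ (by norm_num)))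
  refine kummer_exists_of_cert hζ (h := 3) (k := 6) rfl (by norm_num) (by norm_num) hX (c := 2) (d := 22)
    (A := 1 * kummerNu hζ + 2 * kummerNu hζ ^ 2)
    (B := 8 + 1 * kummerNu hζ) (by norm_num) ?_
  push_cast
  ring

theorem kummer_level_thirteen_8 {K : Type*} [Field K] [NumberField K] [Fact (Nat.Prime 13)]
    [IsCyclotomicExtension {13} ℚ K] {ζ : K} (hζ : IsPrimitiveRoot ζ 13) :
    ∃ g ∈ kummerLevel hζ 8, g ∉ kummerLevel hζ (8 + 1) := by
  have hX : IsUnit ((2 + kummerNu hζ) * (5 + 5 * kummerNu hζ + kummerNu hζ ^ 2) * (1 + kummerNu hζ) ^ 5) :=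
    (((kummer_isUnit_gB hζ (by norm_num)).mul (kummer_isUnit_gD hζ (by norm_num))).mul ((kummer_isUnit_gC hζ (by norm_num)).pow 5))
  refine kummer_exists_of_cert hζ (h := 4) (k := 8) rfl (by norm_num) (by norm_num) hX (c := 10) (d := 275)
    (A := 5 * kummerNu hζ + 14 * kummerNu hζ ^ 2 + 22 * kummerNu hζ ^ 3)
    (B := 165 + 60 * kummerNu hζ + 12 * kummerNu hζ ^ 2 + 1 * kummerNu hζ ^ 3) (by norm_num) ?_
  push_cast
  ring

theorem kummer_level_thirteen_10 {K : Type*} [Field K] [NumberField K] [Fact (Nat.Prime 13)]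
    [IsCyclotomicExtension {13} ℚ K] {ζ : K} (hζ : IsPrimitiveRoot ζ 13) :
    ∃ g ∈ kummerLevel hζ 10, g ∉ kummerLevel hζ (10 + 1) := by
  have hX : IsUnit ((3 + kummerNu hζ) ^ 2 * (2 + kummerNu hζ) ^ 3 * (2 + 4 * kummerNu hζ + kummerNu hζ ^ 2) * (5 + 5 * kummerNu hζ + kummerNu hζ ^ 2) ^ 2 * (1 + 9 * kummerNu hζ + 6 * kummerNu hζ ^ 2 + kummerNu hζ ^ 3)) :=
    ((((((kummer_isUnit_gA hζ (by norm_num)).pow 2).mul ((kummer_isUnit_gB hζ (by norm_num)).pow 3)).mul (kummer_isUnit_gB2 hζ (by norm_num))).mul ((kummer_isUnit_gD hζ (by norm_num)).pow 2)).mul (kummer_isUnit_gC3 hζ (by norm_num)))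
  refine kummer_exists_of_cert hζ (h := 5) (k := 10) rfl (by norm_num) (by norm_num) hX (c := 3600) (d := 1472811)
    (A := 4200 * kummerNu hζ + 21580 * kummerNu hζ ^ 2 + 58450 * kummerNu hζ ^ 3 + 98768 * kummerNu hζ ^ 4)
    (B := 1201903 + 716176 * kummerNu hζ + 315319 * kummerNu hζ ^ 2 + 102596 * kummerNu hζ ^ 3 + 24376 * kummerNu hζ ^ 4 + 4113 * kummerNu hζ ^ 5 + 467 * kummerNu hζ ^ 6 + 32 * kummerNu hζ ^ 7 + 1 * kummerNu hζ ^ 8) (by norm_num) ?_
  push_cast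
  ring


end Fermat.Agent.S11
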