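import Mathlib.GroupTheory.Index
import Mathlib.GroupTheory.OrderOfElement
import Mathlib.GroupTheory.QuotientGroup.Basic

/-!
# Kummer's lemma for small primes: the abstract index chain argument

If `U` is a decreasing chain of subgroups of a commutative group `G`, all `p`-th powers lie in
`U m`, and the chain drops strictly at the levels in a finite set `S` of levels below `m`, then
`p ^ #S ≤ [G : U m]`.
-/

namespace Fermat.Agent.S11

open Subgroup

/-- In a commutative group, if `H ≤ K`, `g ∈ K \ H` and `g ^ p ∈ H` with `p` prime and `H` of finite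
index, then `p * K.index ≤ H.index`. -/
theorem kummer_index_step {G : Type*} [CommGroup G] {p : ℕ} (hp : p.Prime)
    {H K : Subgroup G} (hHK : H ≤ K) (hfin : H.index ≠ 0) {g : G} (hgK : g ∈ K) (hgH : g ∉ H)
    (hgp : g ^ p ∈ H) : p * K.index ≤ H.index := by
  rw [← relIndex_mul_index hHK]
  have hrel : H.relIndex K ≠ 0 := by
    intro h0
    apply hfin
    rw [← relIndex_mul_index hHK, h0, zero_mul]
  have hdvd : p ∣ H.relIndex K := by
    rw [relIndex, index_eq_card]
    set x : K ⧸ H.subgroupOf K := QuotientGroup.mk ⟨g, hgK⟩ with hx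
    have hx1 : x ≠ 1 := by
      rw [hx, Ne, QuotientGroup.eq_one_iff, mem_subgroupOf]
      exact hgH
    have hxp : x ^ p = 1 := by
      rw [hx, ← QuotientGroup.mk_pow, QuotientGroup.eq_one_iff, mem_subgroupOf]
      simpa using hgp
    have : Fact p.Prime := ⟨hp⟩
    have hord : orderOf x = p := orderOf_eq_prime hxp hx1
    rw [← hord]
    exact orderOf_dvd_natCard x
  exact Nat.mul_le_mul_right _ (Nat.le_of_dvd (Nat.pos_of_ne_zero hrel) hdvd)

/-- Chain bound: if `U` is a decreasing chain of subgroups of a commutative group, all `p`-th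
powers lie in `U m`, `U m` has finite index, and `S` is a set of levels `k < m` at which the chain
drops strictly, then `p ^ #S ≤ [G : U m]`. -/
theorem kummer_index_chain {G : Type*} [CommGroup G] {p : ℕ} (hp : p.Prime)
    (U : ℕ → Subgroup G) (hU : Antitone U) (m : ℕ)
    (hpow : ∀ g : G, g ^ p ∈ U m) (hfin : (U m).index ≠ 0)
    (S : Finset ℕ) (hS : ∀ k ∈ S, k < m ∧ ∃ g ∈ U k, g ∉ U (k + 1)) :
    p ^ S.card ≤ (U m).index := by
  have hfinj : ∀ j, j ≤ m → (U j).index ≠ 0 := fun j hj =>
    fun h0 => hfin (Nat.eq_zero_of_zero_dvd (h0 ▸ index_dvd_of_le (hU hj)))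
  have key : ∀ j, j ≤ m → p ^ (S.filter (· < j)).card ≤ (U j).index := by
    intro j
    induction j with
    | zero =>
      intro h0
      simp only [Nat.not_lt_zero, Finset.filter_false, Finset.card_empty, pow_zero]
      exact Nat.one_le_iff_ne_zero.mpr (hfinj 0 h0)
    | succ j ih =>
      intro hj
      have ihj := ih (Nat.le_of_succ_le hj)
      have hle : U (j + 1) ≤ U j := hU (Nat.le_succ j)
      by_cases hjS : j ∈ S
      · have hfilt : S.filter (· < j + 1) = insert j (S.filter (· < j)) := by
          ext k
          simp only [Finset.mem_filter, Finset.mem_insert]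
          constructor
          · rintro ⟨hk, hkj⟩
            rcases Nat.lt_succ_iff_lt_or_eq.mp hkj with h | h
            · exact Or.inr ⟨hk, h⟩
            · exact Or.inl h
          · rintro (h | ⟨hk, hkj⟩)
            · exact ⟨h ▸ hjS, h ▸ Nat.lt_succ_self j⟩
            · exact ⟨hk, Nat.lt_succ_of_lt hkj⟩
        rw [hfilt, Finset.card_insert_of_notMem (by simp), pow_succ']
        obtain ⟨-, g, hgK, hgH⟩ := hS j hjS
        have hgp : g ^ p ∈ U (j + 1) := hU hj (hpow g)
        calc p * p ^ (S.filter (· < j)).card ≤ p * (U j).index := Nat.mul_le_mul_left _ ihj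
          _ ≤ (U (j + 1)).index := kummer_index_step hp hle (hfinj _ hj) hgK hgH hgp
      · have hfilt : S.filter (· < j + 1) = S.filter (· < j) := by
          ext k
          simp only [Finset.mem_filter]
          constructor
          · rintro ⟨hk, hkj⟩
            rcases Nat.lt_succ_iff_lt_or_eq.mp hkj with h | h
            · exact ⟨hk, h⟩
            · exact absurd (h ▸ hk) hjS
          · rintro ⟨hk, hkj⟩
            exact ⟨hk, Nat.lt_succ_of_lt hkj⟩
        rw [hfilt]
        exact ihj.trans (Nat.le_of_dvd (Nat.pos_of_ne_zero (hfinj _ hj)) (index_dvd_of_le hle))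
  have hall : S.filter (· < m) = S := by
    ext k
    simp only [Finset.mem_filter, and_iff_left_iff_imp]
    exact fun hk => (hS k hk).1
  have := key m le_rfl
  rwa [hall] at this

end Fermat.Agent.S11
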