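import Mathlib

/-!
# Kummer's lemma for small primes: the index of `p`-th powers in the unit group

From Dirichlet's unit theorem: `[E : E ^ p] ≤ p ^ ((p - 1) / 2)` for the unit group `E` of the
`p`-th cyclotomic field, `p` an odd prime.
-/

namespace Fermat.Agent.S11

open NumberField NumberField.Units

section Dirichlet

variable {p : ℕ} [hp : Fact p.Prime] {K : Type*} [Field K] [NumberField K]
  [IsCyclotomicExtension {p} ℚ K]

theorem kummer_rank_add_one (hp2 : p ≠ 2) : rank K + 1 = (p - 1) / 2 := by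
  have h3 : 2 < p := lt_of_le_of_ne hp.out.two_le (Ne.symm hp2)
  have hcard : Fintype.card (InfinitePlace K) = (p - 1) / 2 := by
    rw [InfinitePlace.card_eq_nrRealPlaces_add_nrComplexPlaces,
      IsCyclotomicExtension.Rat.nrRealPlaces_eq_zero (n := p) K h3, zero_add,
      IsCyclotomicExtension.Rat.nrComplexPlaces_eq_totient_div_two (n := p),
      Nat.totient_prime hp.out]
  have hpos : 1 ≤ (p - 1) / 2 := by omega
  rw [rank, hcard]
  omega

/-- Every unit is, modulo `p`-th powers, of the form `ζ ^ a * ∏ fundSystem i ^ e i` with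
`a < p` and `e i < p`. -/
theorem kummer_exists_rep (hp2 : p ≠ 2) {ζ : K} (hζ : IsPrimitiveRoot ζ p) (ζu : (𝓞 K)ˣ)
    (hζu : ((ζu : 𝓞 K) : K) = ζ) (u : (𝓞 K)ˣ) :
    ∃ (a : Fin p) (e : Fin (rank K) → Fin p) (v : (𝓞 K)ˣ),
      u = ζu ^ (a : ℕ) * (∏ i, fundSystem K i ^ (e i : ℕ)) * v ^ p := by
  have hpodd : Odd p := hp.out.odd_of_ne_two hp2
  have hppos : 0 < p := hp.out.pos
  obtain ⟨⟨t, e⟩, hu, -⟩ := exist_unique_eq_mul_prod K u
  simp only at hu
  have htfin : IsOfFinOrder (((t : (𝓞 K)ˣ) : 𝓞 K) : K) := by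
    obtain ⟨n, hnpos, hn⟩ := isOfFinOrder_iff_pow_eq_one.1 <| (CommGroup.mem_torsion _).1 t.2
    refine isOfFinOrder_iff_pow_eq_one.2 ⟨n, hnpos, ?_⟩
    rw [← map_pow, ← Units.val_pow_eq_pow_val, hn]
    simp
  obtain ⟨a, hap, hat⟩ := hζ.exists_pow_or_neg_mul_pow_of_isOfFinOrder hpodd htfin
  -- the sign `s = ±1` with `t = s * ζ ^ a`
  obtain ⟨s, hs, hts⟩ : ∃ s : (𝓞 K)ˣ, s ^ p = s ∧ (t : (𝓞 K)ˣ) = s * ζu ^ a := by
    rcases hat with h | h
    · refine ⟨1, one_pow _, ?_⟩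
      ext
      simp [h, hζu]
    · refine ⟨-1, hpodd.neg_one_pow, ?_⟩
      ext
      simp [h, hζu]
  refine ⟨⟨a, hap⟩, fun i => ⟨(e i % p).toNat, ?_⟩, s * ∏ i, fundSystem K i ^ (e i / p), ?_⟩
  · have h1 : 0 ≤ e i % (p : ℤ) := Int.emod_nonneg _ (by exact_mod_cast hppos.ne')
    have h2 : e i % (p : ℤ) < p := Int.emod_lt_of_pos _ (by exact_mod_cast hppos)
    omega
  · rw [hu, hts, mul_pow, hs, ← Finset.prod_pow]
    have hprod : ∏ i, fundSystem K i ^ e i =
        (∏ i, fundSystem K i ^ ((e i % p).toNat)) * ∏ i, (fundSystem K i ^ (e i / p)) ^ p := by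
      rw [← Finset.prod_mul_distrib]
      refine Finset.prod_congr rfl fun i _ => ?_
      have h1 : 0 ≤ e i % (p : ℤ) := Int.emod_nonneg _ (by exact_mod_cast hppos.ne')
      rw [← zpow_natCast (fundSystem K i) (e i % (p : ℤ)).toNat, Int.toNat_of_nonneg h1,
        ← zpow_natCast (fundSystem K i ^ (e i / (p : ℤ))) p, ← zpow_mul, ← zpow_add]
      congr 1
      rw [mul_comm]
      exact (Int.emod_add_mul_ediv (e i) p).symm
    rw [hprod]
    simp only
    rw [mul_assoc, mul_assoc, mul_left_comm s, mul_left_comm s]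

theorem kummer_index_pow_range (hp2 : p ≠ 2) :
    (powMonoidHom p : (𝓞 K)ˣ →* (𝓞 K)ˣ).range.index ≠ 0 ∧
    (powMonoidHom p : (𝓞 K)ˣ →* (𝓞 K)ˣ).range.index ≤ p ^ ((p - 1) / 2) := by
  have hζ := IsCyclotomicExtension.zeta_spec p ℚ K
  set ζu : (𝓞 K)ˣ := (hζ.toInteger_isPrimitiveRoot.isUnit (NeZero.ne p)).unit with hζu
  set P := (powMonoidHom p : (𝓞 K)ˣ →* (𝓞 K)ˣ).range with hP
  let f : Fin p × (Fin (rank K) → Fin p) → (𝓞 K)ˣ ⧸ P := fun x =>
    QuotientGroup.mk (ζu ^ (x.1 : ℕ) * ∏ i, fundSystem K i ^ (x.2 i : ℕ))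
  have hf : Function.Surjective f := by
    intro q
    obtain ⟨u, rfl⟩ := QuotientGroup.mk_surjective q
    obtain ⟨a, e, v, huv⟩ := kummer_exists_rep hp2 hζ ζu rfl u
    refine ⟨(a, e), ?_⟩
    simp only [f]
    rw [QuotientGroup.eq]
    refine ⟨v, ?_⟩
    simp only [powMonoidHom_apply]
    rw [huv]
    group
  have hfin : Finite ((𝓞 K)ˣ ⧸ P) := Finite.of_surjective f hf
  constructor
  · exact Subgroup.index_ne_zero_of_finite
  · rw [Subgroup.index_eq_card]
    calc Nat.card ((𝓞 K)ˣ ⧸ P) ≤ Nat.card (Fin p × (Fin (rank K) → Fin p)) :=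
          Nat.card_le_card_of_surjective f hf
      _ = p ^ ((p - 1) / 2) := by
          rw [Nat.card_prod, Nat.card_fun, Nat.card_fin, Nat.card_fin, ← pow_succ',
            kummer_rank_add_one hp2]

end Dirichlet

end Fermat.Agent.S11
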