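import Mathlib

/-!
# Kummer's lemma for small primes: the `λ`-adic level filtration on units

For `λ = ζ - 1` in the ring of integers of the `p`-th cyclotomic field we consider the subgroups
`kummerLevel hζ k` of units which are congruent to a rational integer modulo `λ ^ k`.
-/

namespace Fermat.Agent.S11

open NumberField

section Levels

variable {p : ℕ} [hp : Fact p.Prime] {K : Type*} [Field K] [NumberField K]
  [IsCyclotomicExtension {p} ℚ K] {ζ : K} (hζ : IsPrimitiveRoot ζ p)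

omit [NumberField K] [IsCyclotomicExtension {p} ℚ K] in
theorem kummer_lam_pow_dvd_p {k : ℕ} (hk : k ≤ p - 1) :
    (hζ.toInteger - 1) ^ k ∣ (p : 𝓞 K) :=
  (pow_dvd_pow _ hk).trans (IsCyclotomicExtension.Rat.associated_zeta_sub_one_pow_prime p hζ).dvd

theorem kummer_lam_pow_dvd_int {k : ℕ} (hk : k ≤ p - 1) {n : ℤ}
    (h : (hζ.toInteger - 1) ∣ (n : 𝓞 K)) : (hζ.toInteger - 1) ^ k ∣ (n : 𝓞 K) := by
  obtain ⟨m, rfl⟩ := (IsCyclotomicExtension.Rat.zeta_sub_one_dvd_intCast_iff' p hζ).mp h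
  push_cast
  exact Dvd.dvd.mul_right (kummer_lam_pow_dvd_p hζ hk) _

/-- The subgroup of units congruent to a rational integer modulo `(ζ - 1) ^ k`. -/
def kummerLevel (k : ℕ) : Subgroup (𝓞 K)ˣ where
  carrier := {u | ∃ n : ℤ, (hζ.toInteger - 1) ^ k ∣ (u : 𝓞 K) - n}
  one_mem' := ⟨1, by simp⟩
  mul_mem' := by
    rintro u v ⟨n, hn⟩ ⟨m, hm⟩
    refine ⟨n * m, ?_⟩
    have : ((u * v : (𝓞 K)ˣ) : 𝓞 K) - ((n * m : ℤ) : 𝓞 K) =
        (u : 𝓞 K) * ((v : 𝓞 K) - m) + m * ((u : 𝓞 K) - n) := by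
      push_cast; ring
    rw [this]
    exact dvd_add (Dvd.dvd.mul_left hm _) (Dvd.dvd.mul_left hn _)
  inv_mem' := by
    rintro u ⟨n, hn⟩
    rcases Nat.eq_zero_or_pos k with rfl | hk
    · exact ⟨0, by simp⟩
    have hlam : ¬ (hζ.toInteger - 1) ∣ (n : 𝓞 K) := by
      intro h
      have h1 : (hζ.toInteger - 1) ∣ (u : 𝓞 K) - n := (dvd_pow_self _ hk.ne').trans hn
      have h2 : (hζ.toInteger - 1) ∣ (u : 𝓞 K) := by
        have := dvd_add h1 h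
        simpa using this
      exact hζ.zeta_sub_one_prime'.not_isUnit (isUnit_of_dvd_unit h2 u.isUnit)
    have hpn : ¬ (p : ℤ) ∣ n := fun h =>
      hlam ((IsCyclotomicExtension.Rat.zeta_sub_one_dvd_intCast_iff' p hζ).mpr h)
    have hcop : IsCoprime n ((p : ℤ) ^ k) := by
      apply IsCoprime.pow_right
      rw [isCoprime_comm]
      exact (Nat.prime_iff_prime_int.mp hp.out).coprime_iff_not_dvd.mpr hpn
    obtain ⟨a, b, hab⟩ := hcop
    refine ⟨a, ?_⟩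
    have h1 : ((u⁻¹ : (𝓞 K)ˣ) : 𝓞 K) * (u : 𝓞 K) = 1 := by simp
    have h2 : (a : 𝓞 K) * n + b * (p : 𝓞 K) ^ k = 1 := by
      have := congrArg (Int.cast : ℤ → 𝓞 K) hab
      push_cast at this
      exact this
    have : ((u⁻¹ : (𝓞 K)ˣ) : 𝓞 K) - (a : 𝓞 K) =
        ((u⁻¹ : (𝓞 K)ˣ) : 𝓞 K) * (-(a * ((u : 𝓞 K) - n)) + b * (p : 𝓞 K) ^ k) := by
      linear_combination (-((u⁻¹ : (𝓞 K)ˣ) : 𝓞 K)) * h2 + (a : 𝓞 K) * h1
    rw [this]
    apply Dvd.dvd.mul_left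
    apply dvd_add
    · exact (Dvd.dvd.mul_left hn _).neg_right
    · apply Dvd.dvd.mul_left
      exact pow_dvd_pow_of_dvd hζ.toInteger_sub_one_dvd_prime' k

theorem mem_kummerLevel {k : ℕ} {u : (𝓞 K)ˣ} :
    u ∈ kummerLevel hζ k ↔ ∃ n : ℤ, (hζ.toInteger - 1) ^ k ∣ (u : 𝓞 K) - n := Iff.rfl

theorem kummerLevel_antitone : Antitone (kummerLevel hζ) := by
  intro k l hkl u hu
  obtain ⟨n, hn⟩ := hu
  exact ⟨n, (pow_dvd_pow _ hkl).trans hn⟩

include hζ in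
/-- Every `p`-th power in `𝓞 K` is congruent to a rational integer modulo `p`. -/
theorem kummer_exists_int_pow_sub_dvd (x : 𝓞 K) : ∃ n : ℤ, (p : 𝓞 K) ∣ x ^ p - n := by
  have hx : x ∈ Algebra.adjoin ℤ {hζ.toInteger} := by
    rw [IsCyclotomicExtension.Rat.adjoin_singleton_eq_top hζ]
    trivial
  induction hx using Algebra.adjoin_induction with
  | mem y hy =>
    rw [Set.mem_singleton_iff] at hy
    subst hy
    refine ⟨1, ?_⟩
    rw [hζ.toInteger_isPrimitiveRoot.pow_eq_one]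
    simp
  | algebraMap r =>
    refine ⟨r ^ p, ?_⟩
    simp
  | add y z _ _ hy hz =>
    obtain ⟨n, hn⟩ := hy
    obtain ⟨m, hm⟩ := hz
    obtain ⟨r, hr⟩ := exists_add_pow_prime_eq hp.out y z
    refine ⟨n + m, ?_⟩
    have : (y + z) ^ p - ((n + m : ℤ) : 𝓞 K) =
        (y ^ p - n) + (z ^ p - m) + (p : 𝓞 K) * (y * z * r) := by
      rw [hr]; push_cast; ring
    rw [this]
    exact dvd_add (dvd_add hn hm) (dvd_mul_right _ _)
  | mul y z _ _ hy hz =>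
    obtain ⟨n, hn⟩ := hy
    obtain ⟨m, hm⟩ := hz
    refine ⟨n * m, ?_⟩
    have : (y * z) ^ p - ((n * m : ℤ) : 𝓞 K) =
        y ^ p * (z ^ p - m) + m * (y ^ p - n) := by
      push_cast; ring
    rw [this]
    exact dvd_add (Dvd.dvd.mul_left hm _) (Dvd.dvd.mul_left hn _)

theorem kummer_pow_mem_level (v : (𝓞 K)ˣ) : v ^ p ∈ kummerLevel hζ (p - 1) := by
  obtain ⟨n, hn⟩ := kummer_exists_int_pow_sub_dvd hζ (v : 𝓞 K)
  refine ⟨n, ?_⟩
  rw [Units.val_pow_eq_pow_val]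
  exact (kummer_lam_pow_dvd_p hζ le_rfl).trans hn

theorem kummer_mem_level_of_cong {u : (𝓞 K)ˣ} (h : ∃ n : ℤ, (p : 𝓞 K) ∣ (u : 𝓞 K) - n) :
    u ∈ kummerLevel hζ (p - 1) := by
  obtain ⟨n, hn⟩ := h
  exact ⟨n, (kummer_lam_pow_dvd_p hζ le_rfl).trans hn⟩

/-- Level certificate: if `u = c + e λ^k + p A + λ^(k+1) B` with `λ ∤ e` and `1 ≤ k`,
`k + 1 ≤ p - 1`, then `u` is congruent to an integer modulo `λ^k` but not modulo `λ^(k+1)`. -/
theorem kummer_level_cert {k : ℕ} (hk1 : 1 ≤ k) (hk : k + 1 ≤ p - 1) {u : (𝓞 K)ˣ} {c : ℤ}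
    {e A B : 𝓞 K} (he : ¬ (hζ.toInteger - 1) ∣ e)
    (hu : (u : 𝓞 K) = c + e * (hζ.toInteger - 1) ^ k + p * A + (hζ.toInteger - 1) ^ (k + 1) * B) :
    u ∈ kummerLevel hζ k ∧ u ∉ kummerLevel hζ (k + 1) := by
  have hlam0 : (hζ.toInteger - 1) ≠ 0 := hζ.zeta_sub_one_prime'.ne_zero
  have hpk : (hζ.toInteger - 1) ^ (k + 1) ∣ (p : 𝓞 K) := kummer_lam_pow_dvd_p hζ hk
  have hkk : (hζ.toInteger - 1) ^ k ∣ (hζ.toInteger - 1) ^ (k + 1) := pow_dvd_pow _ (Nat.le_succ k)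
  have h1 : (hζ.toInteger - 1) ^ k ∣ (u : 𝓞 K) - c := by
    have : (u : 𝓞 K) - c =
        e * (hζ.toInteger - 1) ^ k + p * A + (hζ.toInteger - 1) ^ (k + 1) * B := by
      rw [hu]; ring
    rw [this]
    exact dvd_add (dvd_add (dvd_mul_left _ _) (Dvd.dvd.mul_right (hkk.trans hpk) _))
      (Dvd.dvd.mul_right hkk _)
  refine ⟨⟨c, h1⟩, ?_⟩
  rintro ⟨n, hn⟩
  have hl1 : (hζ.toInteger - 1) ∣ (u : 𝓞 K) - c := (dvd_pow_self _ (by omega)).trans h1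
  have hl2 : (hζ.toInteger - 1) ∣ (u : 𝓞 K) - n := (dvd_pow_self _ (by omega)).trans hn
  have hcn : (hζ.toInteger - 1) ∣ ((c - n : ℤ) : 𝓞 K) := by
    have := dvd_sub hl2 hl1
    have h3 : ((c - n : ℤ) : 𝓞 K) = ((u : 𝓞 K) - n) - ((u : 𝓞 K) - c) := by push_cast; ring
    rw [h3]; exact this
  have hcn' : (hζ.toInteger - 1) ^ (k + 1) ∣ ((c - n : ℤ) : 𝓞 K) :=
    kummer_lam_pow_dvd_int hζ hk hcn
  have h4 : (hζ.toInteger - 1) ^ (k + 1) ∣ e * (hζ.toInteger - 1) ^ k := by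
    have : e * (hζ.toInteger - 1) ^ k =
        ((u : 𝓞 K) - n) + ((c - n : ℤ) : 𝓞 K) * (-1) + (p : 𝓞 K) * (-A) +
          (hζ.toInteger - 1) ^ (k + 1) * (-B) := by
      rw [hu]; push_cast; ring
    rw [this]
    exact dvd_add (dvd_add (dvd_add hn (Dvd.dvd.mul_right hcn' _)) (Dvd.dvd.mul_right hpk _))
      (dvd_mul_right _ _)
  rw [pow_succ, mul_comm e] at h4
  exact he ((mul_dvd_mul_iff_left (pow_ne_zero k hlam0)).mp h4)

end Levels

end Fermat.Agent.S11
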