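import Fermat.Agent.S11.Kummer.Chain
import Fermat.Agent.S11.Kummer.Levels
import Fermat.Agent.S11.Kummer.Dirichlet

/-!
# Kummer's lemma for small primes: generic criterion

If there are units at `(p - 1) / 2` distinct `λ`-adic levels below `p - 1`, then every unit
congruent to a rational integer modulo `p` is a `p`-th power.
-/

namespace Fermat.Agent.S11

open NumberField

section Generic

variable {p : ℕ} [hp : Fact p.Prime] {K : Type*} [Field K] [NumberField K]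
  [IsCyclotomicExtension {p} ℚ K] {ζ : K} (hζ : IsPrimitiveRoot ζ p)

theorem kummer_of_level_units (hp2 : p ≠ 2) (S : Finset ℕ) (hcard : (p - 1) / 2 ≤ S.card)
    (hS : ∀ k ∈ S, k < p - 1 ∧ ∃ g ∈ kummerLevel hζ k, g ∉ kummerLevel hζ (k + 1))
    (u : (𝓞 K)ˣ) (hcong : ∃ n : ℤ, (p : 𝓞 K) ∣ (u : 𝓞 K) - n) :
    ∃ v : (𝓞 K)ˣ, u = v ^ p := by
  obtain ⟨hP0, hPle⟩ := kummer_index_pow_range (K := K) hp2
  have hPU : (powMonoidHom p : (𝓞 K)ˣ →* (𝓞 K)ˣ).range ≤ kummerLevel hζ (p - 1) := by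
    rintro _ ⟨v, rfl⟩
    exact kummer_pow_mem_level hζ v
  have hU0 : (kummerLevel hζ (p - 1)).index ≠ 0 := fun h0 =>
    hP0 (Nat.eq_zero_of_zero_dvd (h0 ▸ Subgroup.index_dvd_of_le hPU))
  have hchain := kummer_index_chain hp.out (kummerLevel hζ) (kummerLevel_antitone hζ) (p - 1)
    (fun g => kummer_pow_mem_level hζ g) hU0 S hS
  have hge : (powMonoidHom p : (𝓞 K)ˣ →* (𝓞 K)ˣ).range.index ≤ (kummerLevel hζ (p - 1)).index :=
    hPle.trans ((Nat.pow_le_pow_right hp.out.pos hcard).trans hchain)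
  have hrel : (powMonoidHom p : (𝓞 K)ˣ →* (𝓞 K)ˣ).range.relIndex (kummerLevel hζ (p - 1)) = 1 := by
    have hmul := Subgroup.relIndex_mul_index hPU
    have hpos : 0 < (kummerLevel hζ (p - 1)).index := Nat.pos_of_ne_zero hU0
    have hrel0 : (powMonoidHom p : (𝓞 K)ˣ →* (𝓞 K)ˣ).range.relIndex (kummerLevel hζ (p - 1)) ≠ 0 := by
      intro h0
      rw [h0, zero_mul] at hmul
      exact hP0 hmul.symm
    have hle1 : (powMonoidHom p : (𝓞 K)ˣ →* (𝓞 K)ˣ).range.relIndex (kummerLevel hζ (p - 1)) ≤ 1 := by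
      by_contra hlt
      replace hlt : 2 ≤ (powMonoidHom p : (𝓞 K)ˣ →* (𝓞 K)ˣ).range.relIndex
          (kummerLevel hζ (p - 1)) := by omega
      have : 2 * (kummerLevel hζ (p - 1)).index ≤
          (powMonoidHom p : (𝓞 K)ˣ →* (𝓞 K)ˣ).range.index := by
        rw [← hmul]
        exact Nat.mul_le_mul_right _ hlt
      omega
    omega
  have hUP : kummerLevel hζ (p - 1) ≤ (powMonoidHom p : (𝓞 K)ˣ →* (𝓞 K)ˣ).range :=
    Subgroup.relIndex_eq_one.mp hrel
  obtain ⟨v, hv⟩ := hUP (kummer_mem_level_of_cong hζ hcong)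
  exact ⟨v, hv.symm⟩

end Generic

end Fermat.Agent.S11
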