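import Fermat.Agent.S11.Kummer.UnitLevel

/-!
# Explicit units of prescribed `λ`-adic level in the `11`-th cyclotomic ring

`λ = ζ - 1`.  For every even `k` with `2 ≤ k ≤ 8` we exhibit a unit `η` (a product of real
cyclotomic units, given by explicit coefficients, with an explicit inverse) together with
integers `c`, `d` prime to `11` such that `η ≡ c * (1 + d * λ ^ k)` modulo `λ ^ (k + 1)`.
All identities are checked by `linear_combination` against `1 + ζ + ⋯ + ζ ^ (p - 1) = 0`.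
-/

set_option autoImplicit false

namespace Fermat.Agent.S11

open NumberField

section UnitData11

variable {K : Type*} [Field K] {ζ : K} (hζ : IsPrimitiveRoot ζ 11)

lemma unitData11_geom :
    1 + hζ.toInteger + hζ.toInteger ^ 2 + hζ.toInteger ^ 3 + hζ.toInteger ^ 4 + hζ.toInteger ^ 5 + hζ.toInteger ^ 6 + hζ.toInteger ^ 7 + hζ.toInteger ^ 8 + hζ.toInteger ^ 9 + hζ.toInteger ^ 10 = 0 := by
  have h := hζ.toInteger_isPrimitiveRoot.geom_sum_eq_zero (by norm_num)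
  simpa [Finset.sum_range_succ] using h

/-- A unit of `λ`-adic level `2` in the `11`-th cyclotomic ring (`λ = ζ - 1`). -/
lemma unitData11_level2 : HasUnitOfLevel 11 hζ 2 := by
  have hg := unitData11_geom hζ
  set z : 𝓞 K := hζ.toInteger with hz
  have h1 : (-z ^ 3 - z ^ 4 - z ^ 5 - z ^ 6 - z ^ 7 - z ^ 8) *
      (-z ^ 3 - z ^ 8) = 1 := by
    linear_combination (-1 + z + z ^ 6) * hg
  refine ⟨Units.mkOfMulEqOne _ _ h1, 5, 1, by norm_num, by norm_num,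
    ⟨4 + 4 * z + 4 * z ^ 2 + 4 * z ^ 3 + 4 * z ^ 4 + 4 * z ^ 5 + 4 * z ^ 6 + 4 * z ^ 7 + 4 * z ^ 8 + 3 * z ^ 9, ?_⟩⟩
  simp only [Units.val_mkOfMulEqOne]
  push_cast
  linear_combination (-6 + 8 * z - 3 * z ^ 2) * hg

/-- A unit of `λ`-adic level `4` in the `11`-th cyclotomic ring (`λ = ζ - 1`). -/
lemma unitData11_level4 : HasUnitOfLevel 11 hζ 4 := by
  have hg := unitData11_geom hζ
  set z : 𝓞 K := hζ.toInteger with hz
  have h1 : (z ^ 4 + 2 * z ^ 5 + 2 * z ^ 6 + z ^ 7) *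
      (z ^ 2 - z ^ 3 + z ^ 4 + z ^ 7 - z ^ 8 + z ^ 9) = 1 := by
    linear_combination (-1 + z + z ^ 6) * hg
  refine ⟨Units.mkOfMulEqOne _ _ h1, 6, 9, by norm_num, by norm_num,
    ⟨57 + 49 * z + 31 * z ^ 2 + 7 * z ^ 3 - 17 * z ^ 4 - 35 * z ^ 5 - 43 * z ^ 6 - 40 * z ^ 7 - 28 * z ^ 8 - 12 * z ^ 9, ?_⟩⟩
  simp only [Units.val_mkOfMulEqOne]
  push_cast
  linear_combination (-3 - 17 * z + 52 * z ^ 2 - 44 * z ^ 3 + 12 * z ^ 4) * hg

/-- A unit of `λ`-adic level `6` in the `11`-th cyclotomic ring (`λ = ζ - 1`). -/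
lemma unitData11_level6 : HasUnitOfLevel 11 hζ 6 := by
  have hg := unitData11_geom hζ
  set z : 𝓞 K := hζ.toInteger with hz
  have h1 : (2 - 6 * z ^ 2 - 14 * z ^ 3 - 21 * z ^ 4 - 25 * z ^ 5 - 25 * z ^ 6 - 21 * z ^ 7 - 14 * z ^ 8 - 6 * z ^ 9) *
      (-5 - 4 * z ^ 2 - 2 * z ^ 3 - 3 * z ^ 4 - 2 * z ^ 5 - 2 * z ^ 6 - 3 * z ^ 7 - 2 * z ^ 8 - 4 * z ^ 9) = 1 := by
    linear_combination (-11 + 11 * z + 22 * z ^ 2 + 44 * z ^ 3 + 57 * z ^ 4 + 66 * z ^ 5 + 62 * z ^ 6 + 44 * z ^ 7 + 24 * z ^ 8) * hg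
  refine ⟨Units.mkOfMulEqOne _ _ h1, 2, 5, by norm_num, by norm_num,
    ⟨-51 - 329 * z - 736 * z ^ 2 - 1143 * z ^ 3 - 1421 * z ^ 4 - 1482 * z ^ 5 - 1307 * z ^ 6 - 952 * z ^ 7 - 530 * z ^ 8 - 175 * z ^ 9, ?_⟩⟩
  simp only [Units.val_mkOfMulEqOne]
  push_cast
  linear_combination (-61 + 149 * z + 252 * z ^ 2 - 1269 * z ^ 3 + 1612 * z ^ 4 - 870 * z ^ 5 + 175 * z ^ 6) * hg

/-- A unit of `λ`-adic level `8` in the `11`-th cyclotomic ring (`λ = ζ - 1`). -/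
lemma unitData11_level8 : HasUnitOfLevel 11 hζ 8 := by
  have hg := unitData11_geom hζ
  set z : 𝓞 K := hζ.toInteger with hz
  have h1 : (9 - 4 * z ^ 2 + 4 * z ^ 3 + 2 * z ^ 4 + z ^ 5 + z ^ 6 + 2 * z ^ 7 + 4 * z ^ 8 - 4 * z ^ 9) *
      (-108 + 289 * z ^ 2 + 668 * z ^ 3 + 1016 * z ^ 4 + 1223 * z ^ 5 + 1223 * z ^ 6 + 1016 * z ^ 7 + 668 * z ^ 8 + 289 * z ^ 9) = 1 := by
    linear_combination (-973 + 973 * z + 3033 * z ^ 2 + 2547 * z ^ 3 + 2192 * z ^ 4 + 1611 * z ^ 5 + 702 * z ^ 6 - 360 * z ^ 7 - 1156 * z ^ 8) * hg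
  refine ⟨Units.mkOfMulEqOne _ _ h1, 4, 3, by norm_num, by norm_num,
    ⟨-36 - 106 * z - 176 * z ^ 2 - 224 * z ^ 3 - 235 * z ^ 4 - 206 * z ^ 5 - 147 * z ^ 6 - 77 * z ^ 7 - 18 * z ^ 8 + 11 * z ^ 9, ?_⟩⟩
  simp only [Units.val_mkOfMulEqOne]
  push_cast
  linear_combination (-43 + 357 * z - 1172 * z ^ 2 + 2102 * z ^ 3 - 2269 * z ^ 4 + 1507 * z ^ 5 - 598 * z ^ 6 + 128 * z ^ 7 - 11 * z ^ 8) * hg

/-- Units of every even level `2 ≤ k ≤ 8` exist in the `11`-th cyclotomic ring. -/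
theorem hasUnitOfLevel_eleven {k : ℕ} (hk : Even k) (h2 : 2 ≤ k) (hk' : k ≤ 8) :
    HasUnitOfLevel 11 hζ k := by
  obtain ⟨m, rfl⟩ := hk
  have hm : m = 1 ∨ m = 2 ∨ m = 3 ∨ m = 4 := by omega
  rcases hm with rfl | rfl | rfl | rfl
  · exact unitData11_level2 hζ
  · exact unitData11_level4 hζ
  · exact unitData11_level6 hζ
  · exact unitData11_level8 hζ

end UnitData11

end Fermat.Agent.S11
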