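import Fermat.Agent.S11.Kummer.UnitLevel

/-!
# Explicit units of prescribed `λ`-adic level in the `13`-th cyclotomic ring

`λ = ζ - 1`.  For every even `k` with `2 ≤ k ≤ 10` we exhibit a unit `η` (a product of real
cyclotomic units, given by explicit coefficients, with an explicit inverse) together with
integers `c`, `d` prime to `13` such that `η ≡ c * (1 + d * λ ^ k)` modulo `λ ^ (k + 1)`.
All identities are checked by `linear_combination` against `1 + ζ + ⋯ + ζ ^ (p - 1) = 0`.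
-/

set_option autoImplicit false

namespace Fermat.Agent.S11

open NumberField

section UnitData13

variable {K : Type*} [Field K] {ζ : K} (hζ : IsPrimitiveRoot ζ 13)

lemma unitData13_geom :
    1 + hζ.toInteger + hζ.toInteger ^ 2 + hζ.toInteger ^ 3 + hζ.toInteger ^ 4 + hζ.toInteger ^ 5 + hζ.toInteger ^ 6 + hζ.toInteger ^ 7 + hζ.toInteger ^ 8 + hζ.toInteger ^ 9 + hζ.toInteger ^ 10 + hζ.toInteger ^ 11 + hζ.toInteger ^ 12 = 0 := by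
  have h := hζ.toInteger_isPrimitiveRoot.geom_sum_eq_zero (by norm_num)
  simpa [Finset.sum_range_succ] using h

/-- A unit of `λ`-adic level `2` in the `13`-th cyclotomic ring (`λ = ζ - 1`). -/
lemma unitData13_level2 : HasUnitOfLevel 13 hζ 2 := by
  have hg := unitData13_geom hζ
  set z : 𝓞 K := hζ.toInteger with hz
  have h1 : (z ^ 4 + z ^ 5 + z ^ 6 + z ^ 7 + z ^ 8 + z ^ 9) *
      (-z ^ 3 - z ^ 10) = 1 := by
    linear_combination (-1 + z - z ^ 7) * hg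
  refine ⟨Units.mkOfMulEqOne _ _ h1, 6, 2, by norm_num, by norm_num,
    ⟨5 + z + 2 * z ^ 3 + 6 * z ^ 4 + 11 * z ^ 5 + 16 * z ^ 6 + 20 * z ^ 7 + 22 * z ^ 8 + 21 * z ^ 9 + 17 * z ^ 10 + 10 * z ^ 11, ?_⟩⟩
  simp only [Units.val_mkOfMulEqOne]
  push_cast
  linear_combination (-13 + 23 * z - 10 * z ^ 2) * hg

/-- A unit of `λ`-adic level `4` in the `13`-th cyclotomic ring (`λ = ζ - 1`). -/
lemma unitData13_level4 : HasUnitOfLevel 13 hζ 4 := by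
  have hg := unitData13_geom hζ
  set z : 𝓞 K := hζ.toInteger with hz
  have h1 : (z ^ 3 + 2 * z ^ 4 + 3 * z ^ 5 + 4 * z ^ 6 + 4 * z ^ 7 + 3 * z ^ 8 + 2 * z ^ 9 + z ^ 10) *
      (-1 - 2 * z ^ 2 - z ^ 3 - z ^ 5 - z ^ 6 - z ^ 7 - z ^ 8 - z ^ 10 - 2 * z ^ 11) = 1 := by
    linear_combination (-1 + z - z ^ 3 - z ^ 4 - 3 * z ^ 5 - 4 * z ^ 6 - 3 * z ^ 7 - 3 * z ^ 8 - 2 * z ^ 9) * hg
  refine ⟨Units.mkOfMulEqOne _ _ h1, 7, 10, by norm_num, by norm_num,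
    ⟨98 + 99 * z + 72 * z ^ 2 + 22 * z ^ 3 - 41 * z ^ 4 - 104 * z ^ 5 - 154 * z ^ 6 - 181 * z ^ 7 - 180 * z ^ 8 - 152 * z ^ 9 - 104 * z ^ 10 - 48 * z ^ 11, ?_⟩⟩
  simp only [Units.val_mkOfMulEqOne]
  push_cast
  linear_combination (21 - 132 * z + 248 * z ^ 2 - 184 * z ^ 3 + 48 * z ^ 4) * hg

/-- A unit of `λ`-adic level `6` in the `13`-th cyclotomic ring (`λ = ζ - 1`). -/
lemma unitData13_level6 : HasUnitOfLevel 13 hζ 6 := by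
  have hg := unitData13_geom hζ
  set z : 𝓞 K := hζ.toInteger with hz
  have h1 : (1 - 4 * z ^ 2 - 9 * z ^ 3 - 12 * z ^ 4 - 13 * z ^ 5 - 14 * z ^ 6 - 14 * z ^ 7 - 13 * z ^ 8 - 12 * z ^ 9 - 9 * z ^ 10 - 4 * z ^ 11) *
      (14 + 4 * z ^ 2 + 9 * z ^ 3 - z ^ 4 + 13 * z ^ 5 + z ^ 6 + z ^ 7 + 13 * z ^ 8 - z ^ 9 + 9 * z ^ 10 + 4 * z ^ 11) = 1 := by
    linear_combination (13 - 13 * z - 52 * z ^ 2 - 65 * z ^ 3 - 68 * z ^ 4 - 56 * z ^ 5 - 79 * z ^ 6 - 78 * z ^ 7 - 53 * z ^ 8 - 56 * z ^ 9 - 16 * z ^ 10) * hg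
  refine ⟨Units.mkOfMulEqOne _ _ h1, 1, 4, by norm_num, by norm_num,
    ⟨76 - 146 * z - 610 * z ^ 2 - 1210 * z ^ 3 - 1810 * z ^ 4 - 2274 * z ^ 5 - 2496 * z ^ 6 - 2424 * z ^ 7 - 2073 * z ^ 8 - 1523 * z ^ 9 - 901 * z ^ 10 - 351 * z ^ 11, ?_⟩⟩
  simp only [Units.val_mkOfMulEqOne]
  push_cast
  linear_combination (72 - 726 * z + 2598 * z ^ 2 - 4539 * z ^ 3 + 4143 * z ^ 4 - 1907 * z ^ 5 + 351 * z ^ 6) * hg

/-- A unit of `λ`-adic level `8` in the `13`-th cyclotomic ring (`λ = ζ - 1`). -/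
lemma unitData13_level8 : HasUnitOfLevel 13 hζ 8 := by
  have hg := unitData13_geom hζ
  set z : 𝓞 K := hζ.toInteger with hz
  have h1 : (-7 + 4 * z ^ 2 - 6 * z ^ 3 - 3 * z ^ 4 + 4 * z ^ 5 - 4 * z ^ 6 - 4 * z ^ 7 + 4 * z ^ 8 - 3 * z ^ 9 - 6 * z ^ 10 + 4 * z ^ 11) *
      (4 - 10 * z ^ 2 - 24 * z ^ 3 - 38 * z ^ 4 - 49 * z ^ 5 - 55 * z ^ 6 - 55 * z ^ 7 - 49 * z ^ 8 - 38 * z ^ 9 - 24 * z ^ 10 - 10 * z ^ 11) = 1 := by
    linear_combination (-29 + 29 * z + 86 * z ^ 2 + 58 * z ^ 3 + 70 * z ^ 4 + 109 * z ^ 5 + 68 * z ^ 6 + 42 * z ^ 7 + 58 * z ^ 8 + 4 * z ^ 9 - 40 * z ^ 10) * hg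
  refine ⟨Units.mkOfMulEqOne _ _ h1, 9, 9, by norm_num, by norm_num,
    ⟨-105 - 487 * z - 979 * z ^ 2 - 1471 * z ^ 3 - 1853 * z ^ 4 - 2039 * z ^ 5 - 1987 * z ^ 6 - 1709 * z ^ 7 - 1269 * z ^ 8 - 770 * z ^ 9 - 330 * z ^ 10 - 52 * z ^ 11, ?_⟩⟩
  simp only [Units.val_mkOfMulEqOne]
  push_cast
  linear_combination (-202 + 1308 * z - 3746 * z ^ 2 + 5798 * z ^ 3 - 5011 * z ^ 4 + 2179 * z ^ 5 - 190 * z ^ 6 - 190 * z ^ 7 + 52 * z ^ 8) * hg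

/-- A unit of `λ`-adic level `10` in the `13`-th cyclotomic ring (`λ = ζ - 1`). -/
lemma unitData13_level10 : HasUnitOfLevel 13 hζ 10 := by
  have hg := unitData13_geom hζ
  set z : 𝓞 K := hζ.toInteger with hz
  have h1 : (-143 - 81 * z ^ 2 - 112 * z ^ 3 + 24 * z ^ 4 - 141 * z ^ 5 - 35 * z ^ 6 - 35 * z ^ 7 - 141 * z ^ 8 + 24 * z ^ 9 - 112 * z ^ 10 - 81 * z ^ 11) *
      (-2 + 29 * z ^ 2 + 60 * z ^ 3 + 106 * z ^ 4 + 141 * z ^ 5 + 165 * z ^ 6 + 165 * z ^ 7 + 141 * z ^ 8 + 106 * z ^ 9 + 60 * z ^ 10 + 29 * z ^ 11) = 1 := by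
    linear_combination (285 - 285 * z - 3985 * z ^ 2 - 4371 * z ^ 3 - 9199 * z ^ 4 - 10434 * z ^ 5 - 10146 * z ^ 6 - 11332 * z ^ 7 - 6502 * z ^ 8 - 5759 * z ^ 9 - 2349 * z ^ 10) * hg
  refine ⟨Units.mkOfMulEqOne _ _ h1, 12, 2, by norm_num, by norm_num,
    ⟨2212 + 5048 * z + 7884 * z ^ 2 + 10072 * z ^ 3 + 11111 * z ^ 4 + 10760 * z ^ 5 + 9097 * z ^ 6 + 6502 * z ^ 7 + 3570 * z ^ 8 + 975 * z ^ 9 - 688 * z ^ 10 - 1039 * z ^ 11, ?_⟩⟩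
  simp only [Units.val_mkOfMulEqOne]
  push_cast
  linear_combination (2033 - 21077 * z + 91899 * z ^ 2 - 234079 * z ^ 3 + 387187 * z ^ 4 - 434521 * z ^ 5 + 334933 * z ^ 6 - 175042 * z ^ 7 + 59343 * z ^ 8 - 11780 * z ^ 9 + 1039 * z ^ 10) * hg

/-- Units of every even level `2 ≤ k ≤ 10` exist in the `13`-th cyclotomic ring. -/
theorem hasUnitOfLevel_thirteen {k : ℕ} (hk : Even k) (h2 : 2 ≤ k) (hk' : k ≤ 10) :
    HasUnitOfLevel 13 hζ k := by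
  obtain ⟨m, rfl⟩ := hk
  have hm : m = 1 ∨ m = 2 ∨ m = 3 ∨ m = 4 ∨ m = 5 := by omega
  rcases hm with rfl | rfl | rfl | rfl | rfl
  · exact unitData13_level2 hζ
  · exact unitData13_level4 hζ
  · exact unitData13_level6 hζ
  · exact unitData13_level8 hζ
  · exact unitData13_level10 hζ

end UnitData13

end Fermat.Agent.S11
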