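import Fermat.Agent.S11.Kummer.UnitLevel

/-!
# Explicit units of prescribed `λ`-adic level in the `7`-th cyclotomic ring

`λ = ζ - 1`.  For every even `k` with `2 ≤ k ≤ 4` we exhibit a unit `η` (a product of real
cyclotomic units, given by explicit coefficients, with an explicit inverse) together with
integers `c`, `d` prime to `7` such that `η ≡ c * (1 + d * λ ^ k)` modulo `λ ^ (k + 1)`.
All identities are checked by `linear_combination` against `1 + ζ + ⋯ + ζ ^ (p - 1) = 0`.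
-/

set_option autoImplicit false

namespace Fermat.Agent.S11

open NumberField

section UnitData7

variable {K : Type*} [Field K] {ζ : K} (hζ : IsPrimitiveRoot ζ 7)

lemma unitData7_geom :
    1 + hζ.toInteger + hζ.toInteger ^ 2 + hζ.toInteger ^ 3 + hζ.toInteger ^ 4 + hζ.toInteger ^ 5 + hζ.toInteger ^ 6 = 0 := by
  have h := hζ.toInteger_isPrimitiveRoot.geom_sum_eq_zero (by norm_num)
  simpa [Finset.sum_range_succ] using h

/-- A unit of `λ`-adic level `2` in the `7`-th cyclotomic ring (`λ = ζ - 1`). -/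
lemma unitData7_level2 : HasUnitOfLevel 7 hζ 2 := by
  have hg := unitData7_geom hζ
  set z : 𝓞 K := hζ.toInteger with hz
  have h1 : (-z ^ 2 - z ^ 3 - z ^ 4 - z ^ 5) *
      (-z ^ 2 - z ^ 5) = 1 := by
    linear_combination (-1 + z + z ^ 4) * hg
  refine ⟨Units.mkOfMulEqOne _ _ h1, 3, 5, by norm_num, by norm_num,
    ⟨13 + 11 * z + 9 * z ^ 2 + 7 * z ^ 3 + 5 * z ^ 4 + 3 * z ^ 5, ?_⟩⟩
  simp only [Units.val_mkOfMulEqOne]
  push_cast
  linear_combination (-5 + 7 * z - 3 * z ^ 2) * hg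

/-- A unit of `λ`-adic level `4` in the `7`-th cyclotomic ring (`λ = ζ - 1`). -/
lemma unitData7_level4 : HasUnitOfLevel 7 hζ 4 := by
  have hg := unitData7_geom hζ
  set z : 𝓞 K := hζ.toInteger with hz
  have h1 : (1 - 2 * z ^ 2 - 3 * z ^ 3 - 3 * z ^ 4 - 2 * z ^ 5) *
      (-3 - 3 * z ^ 2 - z ^ 3 - z ^ 4 - 3 * z ^ 5) = 1 := by
    linear_combination (-4 + 4 * z + 3 * z ^ 2 + 5 * z ^ 3 + 6 * z ^ 4) * hg
  refine ⟨Units.mkOfMulEqOne _ _ h1, 5, 3, by norm_num, by norm_num,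
    ⟨13 + 12 * z + 11 * z ^ 2 + 9 * z ^ 3 + 6 * z ^ 4 + 3 * z ^ 5, ?_⟩⟩
  simp only [Units.val_mkOfMulEqOne]
  push_cast
  linear_combination (-6 + 13 * z - 18 * z ^ 2 + 12 * z ^ 3 - 3 * z ^ 4) * hg

/-- Units of every even level `2 ≤ k ≤ 4` exist in the `7`-th cyclotomic ring. -/
theorem hasUnitOfLevel_seven {k : ℕ} (hk : Even k) (h2 : 2 ≤ k) (hk' : k ≤ 4) :
    HasUnitOfLevel 7 hζ k := by
  obtain ⟨m, rfl⟩ := hk
  have hm : m = 1 ∨ m = 2 := by omega
  rcases hm with rfl | rfl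
  · exact unitData7_level2 hζ
  · exact unitData7_level4 hζ

end UnitData7

end Fermat.Agent.S11
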