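import Mathlib.NumberTheory.NumberField.Basic
import Mathlib.NumberTheory.NumberField.Cyclotomic.Basic
import Mathlib.Tactic.LinearCombination
import Mathlib.Tactic.Ring
import Mathlib.Tactic.NormNum

/-!
# Units of prescribed `λ`-adic level

Let `ζ` be a primitive `p`-th root of unity in a field `K` and `λ = ζ - 1` in `𝓞 K`.
`HasUnitOfLevel p hζ k` says that there is a unit `η` of `𝓞 K` and integers `c`, `d`, both prime
to `p`, with `η ≡ c * (1 + d * λ ^ k)` modulo `λ ^ (k + 1)`.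
-/

set_option autoImplicit false

namespace Fermat.Agent.S11

open NumberField

/-- There is a unit `η` with `η ≡ c * (1 + d * λ ^ k) mod λ ^ (k + 1)`, `p ∤ c`, `p ∤ d`,
where `λ = ζ - 1`. -/
def HasUnitOfLevel (p : ℕ) [NeZero p] {K : Type*} [Field K] {ζ : K} (hζ : IsPrimitiveRoot ζ p)
    (k : ℕ) : Prop :=
  ∃ (η : (𝓞 K)ˣ) (c d : ℤ), ¬ (p : ℤ) ∣ c ∧ ¬ (p : ℤ) ∣ d ∧
    (hζ.toInteger - 1) ^ (k + 1) ∣
      (η : 𝓞 K) - (c : 𝓞 K) * (1 + (d : 𝓞 K) * (hζ.toInteger - 1) ^ k)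

/-- Unfolded form of `HasUnitOfLevel`. -/
lemma hasUnitOfLevel_iff {p : ℕ} [NeZero p] {K : Type*} [Field K] {ζ : K}
    (hζ : IsPrimitiveRoot ζ p) (k : ℕ) :
    HasUnitOfLevel p hζ k ↔
      ∃ (η : (𝓞 K)ˣ) (c d : ℤ), ¬ (p : ℤ) ∣ c ∧ ¬ (p : ℤ) ∣ d ∧
        (hζ.toInteger - 1) ^ (k + 1) ∣
          (η : 𝓞 K) - (c : 𝓞 K) * (1 + (d : 𝓞 K) * (hζ.toInteger - 1) ^ k) :=
  Iff.rfl

/-- `ζ` itself is a unit of level `1`: `ζ = 1 * (1 + 1 * λ)`. -/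
lemma hasUnitOfLevel_one {p : ℕ} [NeZero p] (hp : 2 ≤ p) {K : Type*} [Field K] {ζ : K}
    (hζ : IsPrimitiveRoot ζ p) : HasUnitOfLevel p hζ 1 := by
  have hu : IsUnit hζ.toInteger := hζ.toInteger_isPrimitiveRoot.isUnit (NeZero.ne p)
  have h1 : ¬ (p : ℤ) ∣ 1 := by
    intro h
    have := Int.le_of_dvd one_pos h
    omega
  refine ⟨hu.unit, 1, 1, h1, h1, ⟨0, ?_⟩⟩
  rw [IsUnit.unit_spec]
  push_cast
  ring

end Fermat.Agent.S11
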