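import Fermat.Agent.S11.Kummer.Levels

/-!
# Kummer's lemma for small primes: explicit real cyclotomic units

With `ν = ζ⁻¹ (ζ - 1)² = ζ + ζ⁻¹ - 2`, the real cyclotomic units are polynomials in `ν`.
We exhibit, for `p ∈ {5, 7, 11, 13}` and every `1 ≤ h ≤ (p - 3) / 2`, a unit which is congruent to a
rational integer modulo `λ ^ (2 h)` but not modulo `λ ^ (2 h + 1)`.
-/

namespace Fermat.Agent.S11

open NumberField

section Nu

variable {p : ℕ} [hp : Fact p.Prime] {K : Type*} [Field K] [NumberField K]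
  [IsCyclotomicExtension {p} ℚ K] {ζ : K} (hζ : IsPrimitiveRoot ζ p)

/-- `ν = ζ ^ (p - 1) * (ζ - 1) ^ 2 = ζ + ζ⁻¹ - 2`. -/
noncomputable def kummerNu : 𝓞 K := hζ.toInteger ^ (p - 1) * (hζ.toInteger - 1) ^ 2

omit [NumberField K] [IsCyclotomicExtension {p} ℚ K] in
theorem kummer_zeta_pow_mul : hζ.toInteger ^ (p - 1) * hζ.toInteger = 1 := by
  rw [← pow_succ, Nat.sub_add_cancel hp.out.one_le, hζ.toInteger_isPrimitiveRoot.pow_eq_one]

omit [NumberField K] [IsCyclotomicExtension {p} ℚ K] in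
theorem kummerNu_mul_zeta : kummerNu hζ * hζ.toInteger = (hζ.toInteger - 1) ^ 2 := by
  rw [kummerNu]
  linear_combination (hζ.toInteger - 1) ^ 2 * kummer_zeta_pow_mul hζ

omit [NumberField K] [IsCyclotomicExtension {p} ℚ K] in
theorem kummerNu_pow_mul_zeta_pow (j : ℕ) :
    kummerNu hζ ^ j * hζ.toInteger ^ j = (hζ.toInteger - 1) ^ (2 * j) := by
  rw [← mul_pow, kummerNu_mul_zeta, ← pow_mul]

/-- Level certificate in terms of `ν`. -/
theorem kummer_level_cert_nu {h : ℕ} (hh1 : 1 ≤ h) (hh : 2 * h + 1 ≤ p - 1) {u : (𝓞 K)ˣ}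
    {c d : ℤ} {A B : 𝓞 K} (hd : ¬ (p : ℤ) ∣ d)
    (hu : (u : 𝓞 K) = c + d * kummerNu hζ ^ h + p * A + kummerNu hζ ^ (h + 1) * B) :
    u ∈ kummerLevel hζ (2 * h) ∧ u ∉ kummerLevel hζ (2 * h + 1) := by
  have hunit : IsUnit (hζ.toInteger ^ (p - 1)) :=
    IsUnit.of_mul_eq_one _ (kummer_zeta_pow_mul hζ)
  refine kummer_level_cert hζ (by omega) hh (c := c)
    (e := d * (hζ.toInteger ^ (p - 1)) ^ h) (A := A)
    (B := (hζ.toInteger - 1) * (hζ.toInteger ^ (p - 1)) ^ (h + 1) * B) ?_ ?_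
  · intro hdvd
    have h1 : (hζ.toInteger - 1) ∣ (d : 𝓞 K) := ((hunit.pow h).dvd_mul_right).mp hdvd
    exact hd ((IsCyclotomicExtension.Rat.zeta_sub_one_dvd_intCast_iff' p hζ).mp h1)
  · rw [hu, kummerNu]
    generalize hζ.toInteger ^ (p - 1) = w
    generalize hζ.toInteger - 1 = l
    ring

end Nu

section UnitLemmas

variable {p : ℕ} [hp : Fact p.Prime] {K : Type*} [Field K] [NumberField K]
  [IsCyclotomicExtension {p} ℚ K] {ζ : K} (hζ : IsPrimitiveRoot ζ p)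

omit [NumberField K] [IsCyclotomicExtension {p} ℚ K] in
theorem kummer_geom_isUnit {d : ℕ} (hd : d.Coprime p) :
    IsUnit (∑ i ∈ Finset.range d, hζ.toInteger ^ i) :=
  hζ.toInteger_isPrimitiveRoot.geom_sum_isUnit hp.out.two_le hd

omit [NumberField K] [IsCyclotomicExtension {p} ℚ K] in
/-- `3 + ν = ζ⁻¹ Φ₃(ζ)` is a unit. -/
theorem kummer_isUnit_gA (h3 : (3 : ℕ).Coprime p) : IsUnit (3 + kummerNu hζ) := by
  refine isUnit_of_dvd_unit ⟨hζ.toInteger, ?_⟩ (kummer_geom_isUnit hζ h3)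
  simp only [Finset.sum_range_succ, Finset.sum_range_zero]
  linear_combination (-1) * kummerNu_mul_zeta hζ

omit [NumberField K] [IsCyclotomicExtension {p} ℚ K] in
/-- `2 + ν = ζ⁻¹ Φ₄(ζ)` is a unit. -/
theorem kummer_isUnit_gB (h4 : (4 : ℕ).Coprime p) : IsUnit (2 + kummerNu hζ) := by
  refine isUnit_of_dvd_unit ⟨hζ.toInteger * (1 + hζ.toInteger), ?_⟩ (kummer_geom_isUnit hζ h4)
  simp only [Finset.sum_range_succ, Finset.sum_range_zero]
  linear_combination (-(1 + hζ.toInteger)) * kummerNu_mul_zeta hζ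

omit [NumberField K] [IsCyclotomicExtension {p} ℚ K] in
/-- `1 + ν = ζ⁻¹ Φ₆(ζ)` is a unit. -/
theorem kummer_isUnit_gC (h6 : (6 : ℕ).Coprime p) : IsUnit (1 + kummerNu hζ) := by
  refine isUnit_of_dvd_unit
    ⟨hζ.toInteger * ((1 + hζ.toInteger) * (1 + hζ.toInteger + hζ.toInteger ^ 2)), ?_⟩
    (kummer_geom_isUnit hζ h6)
  simp only [Finset.sum_range_succ, Finset.sum_range_zero]
  linear_combination
    (-((1 + hζ.toInteger) * (1 + hζ.toInteger + hζ.toInteger ^ 2))) * kummerNu_mul_zeta hζ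

omit [NumberField K] [IsCyclotomicExtension {p} ℚ K] in
/-- `5 + 5 ν + ν² = ζ⁻² Φ₅(ζ)` is a unit. -/
theorem kummer_isUnit_gD (h5 : (5 : ℕ).Coprime p) :
    IsUnit (5 + 5 * kummerNu hζ + kummerNu hζ ^ 2) := by
  refine isUnit_of_dvd_unit ⟨hζ.toInteger ^ 2, ?_⟩ (kummer_geom_isUnit hζ h5)
  simp only [Finset.sum_range_succ, Finset.sum_range_zero]
  linear_combination (-5 * hζ.toInteger) * kummerNu_pow_mul_zeta_pow hζ 1
    + (-1) * kummerNu_pow_mul_zeta_pow hζ 2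

omit [NumberField K] [IsCyclotomicExtension {p} ℚ K] in
/-- `1 + 4 ν + ν² = ζ⁻² Φ₁₂(ζ)` is a unit. -/
theorem kummer_isUnit_gC2 (h12 : (12 : ℕ).Coprime p) :
    IsUnit (1 + 4 * kummerNu hζ + kummerNu hζ ^ 2) := by
  refine isUnit_of_dvd_unit
    ⟨hζ.toInteger ^ 2 * ((1 + hζ.toInteger) * (1 + hζ.toInteger + hζ.toInteger ^ 2) *
      (1 + hζ.toInteger ^ 2) * (1 - hζ.toInteger + hζ.toInteger ^ 2)), ?_⟩
    (kummer_geom_isUnit hζ h12)
  simp only [Finset.sum_range_succ, Finset.sum_range_zero]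
  linear_combination
    (-((1 + hζ.toInteger) * (1 + hζ.toInteger + hζ.toInteger ^ 2) *
      (1 + hζ.toInteger ^ 2) * (1 - hζ.toInteger + hζ.toInteger ^ 2))) *
      ((4 * hζ.toInteger) * kummerNu_pow_mul_zeta_pow hζ 1
        + kummerNu_pow_mul_zeta_pow hζ 2)

omit [NumberField K] [IsCyclotomicExtension {p} ℚ K] in
/-- `2 + 4 ν + ν² = ζ⁻² Φ₈(ζ)` is a unit. -/
theorem kummer_isUnit_gB2 (h8 : (8 : ℕ).Coprime p) :
    IsUnit (2 + 4 * kummerNu hζ + kummerNu hζ ^ 2) := by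
  refine isUnit_of_dvd_unit
    ⟨hζ.toInteger ^ 2 * ((1 + hζ.toInteger) * (1 + hζ.toInteger ^ 2)), ?_⟩
    (kummer_geom_isUnit hζ h8)
  simp only [Finset.sum_range_succ, Finset.sum_range_zero]
  linear_combination
    (-((1 + hζ.toInteger) * (1 + hζ.toInteger ^ 2))) *
      ((4 * hζ.toInteger) * kummerNu_pow_mul_zeta_pow hζ 1
        + kummerNu_pow_mul_zeta_pow hζ 2)

omit [NumberField K] [IsCyclotomicExtension {p} ℚ K] in
/-- `1 + 9 ν + 6 ν² + ν³ = ζ⁻³ Φ₁₈(ζ)` is a unit. -/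
theorem kummer_isUnit_gC3 (h18 : (18 : ℕ).Coprime p) :
    IsUnit (1 + 9 * kummerNu hζ + 6 * kummerNu hζ ^ 2 + kummerNu hζ ^ 3) := by
  refine isUnit_of_dvd_unit
    ⟨hζ.toInteger ^ 3 * ((1 + hζ.toInteger) * (1 + hζ.toInteger + hζ.toInteger ^ 2) *
      (1 - hζ.toInteger + hζ.toInteger ^ 2) * (1 + hζ.toInteger ^ 3 + hζ.toInteger ^ 6)), ?_⟩
    (kummer_geom_isUnit hζ h18)
  simp only [Finset.sum_range_succ, Finset.sum_range_zero]
  linear_combination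
    (-((1 + hζ.toInteger) * (1 + hζ.toInteger + hζ.toInteger ^ 2) *
      (1 - hζ.toInteger + hζ.toInteger ^ 2) * (1 + hζ.toInteger ^ 3 + hζ.toInteger ^ 6))) *
      ((9 * hζ.toInteger ^ 2) * kummerNu_pow_mul_zeta_pow hζ 1
        + (6 * hζ.toInteger) * kummerNu_pow_mul_zeta_pow hζ 2
        + kummerNu_pow_mul_zeta_pow hζ 3)

end UnitLemmas

end Fermat.Agent.S11
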